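import Mathlib
import Fermat.Agent.MUL.Orig.Lib.MultRed.Core
import Fermat.Agent.MUL.Lib.VarChange.Point
import Fermat.Agent.MUL.Orig.S05.H5.Galois
import Fermat.Agent.MUL.Lib.FrobTrace.MainAll

section MergeWrap_Lib_MultRed_Unipotent -- from Lib/MultRed/Unipotent.lean

/-!
# MultRed / Unipotent: inertia acts unipotently on odd torsion at a node (owner: helper4)

Abstract form.  `W₀` a Weierstrass curve over `R`, `K ⊇ R` a valued field, the coefficients of `W₀⁄K`
integral; after the translation by an integral `(r, t)` the curve is in nodal normal form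
(`NodalNF`, tangent directions `α, β`).  `σ` an automorphism of `K` preserving `v`, trivial modulo
the maximal ideal, fixing `r, t, α, β`.  `hE0`: points with nonsingular reduction are closed under
addition.  Then for `X` with `n • X = 0`, `n` odd, `v n = 1`:
`σ (σ X - X) = σ X - X`, i.e. `(σ - 1)² X = 0`.
-/

set_option autoImplicit false

namespace Fermat.Agent.MultRed

open WeierstrassCurve WeierstrassCurve.Affine S05H5 S05H65 S05H75 Fermat.Agent.VarChange

variable {K : Type*} [Field K] [DecidableEq K] {Γ₀ : Type*} [LinearOrderedCommGroupWithZero Γ₀]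

/-- `P` is integral with singular reduction -/
def IsSingPt (v : Valuation K Γ₀) {W : Affine K} : W.Point → Prop
  | .zero => False
  | .some x y _ => v x ≤ 1 ∧ v (W.a₁ * y - (3 * x ^ 2 + 2 * W.a₂ * x + W.a₄)) < 1 ∧
      v (2 * y + W.a₁ * x + W.a₃) < 1

omit [DecidableEq K] in
lemma not_isSingPt_zero (v : Valuation K Γ₀) {W : Affine K} : ¬ IsSingPt v (0 : W.Point) :=
  fun h => h

omit [DecidableEq K] in
lemma vcX_transl (r t x : K) : vcX (transl r t) x = x + r := by simp [vcX, transl]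

omit [DecidableEq K] in
lemma vcY_transl (r t x y : K) : vcY (transl r t) x y = y + t := by simp [vcY, transl]

section Bridge

variable (v : Valuation K Γ₀) (W : Affine K)

/-- every point is a translate -/
theorem exists_vcHom_eq (r t : K) (P : W.Point) :
    ∃ P' : ((transl r t) • W).toAffine.Point, vcHom (W₁ := W) (transl r t) rfl P' = P := by
  rcases P with _ | ⟨x, y, h⟩
  · exact ⟨0, rfl⟩
  · have h' : ((transl r t) • W).toAffine.Nonsingular (x - r) (y - t) := by
      rw [vc_nonsingular_iff, vcX_transl, vcY_transl, sub_add_cancel, sub_add_cancel]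
      exact h
    refine ⟨Point.some (x - r) (y - t) h', ?_⟩
    rw [vcHom_apply, vcFun_some]
    simp only [vcX_transl, vcY_transl, sub_add_cancel]

/-- a translate with singular reduction comes from a node point -/
theorem isNodePt_of_isSingPt (ha₁ : v W.a₁ ≤ 1) (ha₂ : v W.a₂ ≤ 1) (ha₃ : v W.a₃ ≤ 1)
    (ha₄ : v W.a₄ ≤ 1) (ha₆ : v W.a₆ ≤ 1) {r t α β : K} (hr : v r ≤ 1) (ht : v t ≤ 1)
    (nf : NodalNF v ((transl r t) • W).toAffine α β) (P' : ((transl r t) • W).toAffine.Point)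
    (hs : IsSingPt v (vcHom (W₁ := W) (transl r t) rfl P')) : IsNodePt v P' := by
  rcases P' with _ | ⟨x, y, h⟩
  · exact hs
  · rw [vcHom_apply, vcFun_some] at hs
    obtain ⟨hx, hFx, hFy⟩ := hs
    have hxy := vc_nonsingular_of_eq (W₁ := W) (transl r t) rfl h
    have hy : v (vcY (transl r t) x y) ≤ 1 := v_y_le_one v W ha₁ ha₂ ha₃ ha₄ ha₆ hxy.1 hx
    rw [vc_A] at hFx
    rw [vc_B] at hFy
    have hu : (((transl r t).u : Kˣ) : K) = 1 := rfl
    have hs0 : (transl r t).s = 0 := rfl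
    rw [hu, hs0] at hFx
    rw [hu] at hFy
    simp only [one_pow, one_mul, zero_mul, sub_zero] at hFx hFy
    rw [vcX_transl] at hx
    rw [vcY_transl] at hy
    have hx' : v x ≤ 1 := by
      have : x = (x + r) - r := by ring
      rw [this]; exact vle_sub v hx hr
    have hy' : v y ≤ 1 := by
      have : y = (y + t) - t := by ring
      rw [this]; exact vle_sub v hy ht
    exact isNode_of_singular nf h.1 hx' hy' hFx hFy

end Bridge

section NSmul

variable {v : Valuation K Γ₀} {W : Affine K}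

lemma not_isSingPt_nsmul
    (hE0 : ∀ P Q : W.Point, ¬ IsSingPt v P → ¬ IsSingPt v Q → ¬ IsSingPt v (P + Q))
    {Q : W.Point} (hQ : ¬ IsSingPt v Q) (k : ℕ) : ¬ IsSingPt v (k • Q) := by
  induction k with
  | zero => rw [zero_smul]; exact not_isSingPt_zero v
  | succ k ih => rw [succ_nsmul]; exact hE0 _ _ ih hQ

omit [DecidableEq K] in
lemma not_isSingPt_neg (ha₁ : v W.a₁ ≤ 1) {Q : W.Point} (hQ : ¬ IsSingPt v Q) :
    ¬ IsSingPt v (-Q) := by
  rcases Q with _ | ⟨x, y, h⟩
  · exact hQ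
  · rw [Point.neg_some]
    rintro ⟨hx, hFx, hFy⟩
    apply hQ
    have hFy' : v (2 * y + W.a₁ * x + W.a₃) < 1 := by
      have : 2 * y + W.a₁ * x + W.a₃ = -(2 * W.negY x y + W.a₁ * x + W.a₃) := by
        simp only [Affine.negY]; ring
      rw [this, Valuation.map_neg]; exact hFy
    refine ⟨hx, ?_, hFy'⟩
    have : W.a₁ * y - (3 * x ^ 2 + 2 * W.a₂ * x + W.a₄)
        = (W.a₁ * W.negY x y - (3 * x ^ 2 + 2 * W.a₂ * x + W.a₄))
          + W.a₁ * (2 * y + W.a₁ * x + W.a₃) := by
      simp only [Affine.negY]; ring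
    rw [this]
    exact vlt_add v hFx (vlt_mul_left v ha₁ hFy')

end NSmul

section Galois

variable {R S : Type*} [CommRing R] [CommRing S] [Algebra R S] [Algebra R K] [Algebra S K]
  [IsScalarTower R S K]

omit [DecidableEq K] in
lemma algHom_coeff (σ : K →ₐ[S] K) (a : R) : σ (algebraMap R K a) = algebraMap R K a := by
  rw [IsScalarTower.algebraMap_apply R S K, σ.commutes]

/-- `σ` preserves the points with singular reduction -/
theorem isSingPt_map_iff (v : Valuation K Γ₀) (W' : Affine R) (σ : K →ₐ[S] K)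
    (hσv : ∀ a : K, v (σ a) = v a) (X : (W'⁄K).Point) :
    IsSingPt v (Point.map σ X) ↔ IsSingPt v X := by
  rcases X with _ | ⟨x, y, h⟩
  · exact Iff.rfl
  · have hmap : Point.map σ (Point.some x y h) = Point.some (σ x) (σ y)
        ((W'.baseChange_nonsingular σ.injective x y).mpr h) := Point.map_some σ h
    rw [hmap]
    have c₁ : σ (W'⁄K).a₁ = (W'⁄K).a₁ := by
      change σ (W'.map (algebraMap R K)).a₁ = _
      rw [WeierstrassCurve.map_a₁]; exact algHom_coeff σ _
    have c₂ : σ (W'⁄K).a₂ = (W'⁄K).a₂ := by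
      change σ (W'.map (algebraMap R K)).a₂ = _
      rw [WeierstrassCurve.map_a₂]; exact algHom_coeff σ _
    have c₃ : σ (W'⁄K).a₃ = (W'⁄K).a₃ := by
      change σ (W'.map (algebraMap R K)).a₃ = _
      rw [WeierstrassCurve.map_a₃]; exact algHom_coeff σ _
    have c₄ : σ (W'⁄K).a₄ = (W'⁄K).a₄ := by
      change σ (W'.map (algebraMap R K)).a₄ = _
      rw [WeierstrassCurve.map_a₄]; exact algHom_coeff σ _
    have e1 : (W'⁄K).a₁ * σ y - (3 * σ x ^ 2 + 2 * (W'⁄K).a₂ * σ x + (W'⁄K).a₄)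
        = σ ((W'⁄K).a₁ * y - (3 * x ^ 2 + 2 * (W'⁄K).a₂ * x + (W'⁄K).a₄)) := by
      simp only [map_sub, map_add, map_mul, map_pow, c₁, c₂, c₄, map_ofNat]
    have e2 : 2 * σ y + (W'⁄K).a₁ * σ x + (W'⁄K).a₃
        = σ (2 * y + (W'⁄K).a₁ * x + (W'⁄K).a₃) := by
      simp only [map_add, map_mul, c₁, c₃, map_ofNat]
    simp only [IsSingPt]
    rw [e1, e2, hσv, hσv, hσv]

/-- (i): a torsion point with nonsingular reduction is fixed -/
theorem map_eq_self_of_not_isSingPt (v : Valuation K Γ₀) (W' : Affine R)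
    (ha₁ : v (W'⁄K).a₁ ≤ 1) (ha₂ : v (W'⁄K).a₂ ≤ 1) (ha₃ : v (W'⁄K).a₃ ≤ 1)
    (ha₄ : v (W'⁄K).a₄ ≤ 1) (ha₆ : v (W'⁄K).a₆ ≤ 1)
    (σ : K →ₐ[S] K) (hσ : ∀ a : K, v a ≤ 1 → v (σ a - a) < 1)
    {n : ℕ} (hn : v (n : K) = 1) (X : (W'⁄K).Point) (hX : n • X = 0)
    (hns : ¬ IsSingPt v X) : Point.map σ X = X := by
  obtain ⟨hb₂, hb₄, hb₆, hb₈⟩ := v_b_le_one v (W'⁄K) ha₁ ha₂ ha₃ ha₄ ha₆
  rcases X with _ | ⟨x, y, h⟩
  · rfl
  · have hx : v x ≤ 1 := by
      by_contra hx
      rw [not_le] at hx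
      have : (Point.some x y h : (W'⁄K).Point) = 0 :=
        inG1_torsion_free v hb₂ hb₄ hb₆ hb₈ hn (Or.inr hx) hX
      exact Point.some_ne_zero h this
    have hy : v y ≤ 1 := v_y_le_one v (W'⁄K) ha₁ ha₂ ha₃ ha₄ ha₆ h.1 hx
    have hmap : Point.map σ (Point.some x y h) = Point.some (σ x) (σ y)
        ((W'.baseChange_nonsingular σ.injective x y).mpr h) := Point.map_some σ h
    rw [hmap]
    have hns' : ¬ (v ((W'⁄K).a₁ * y - (3 * x ^ 2 + 2 * (W'⁄K).a₂ * x + (W'⁄K).a₄)) < 1 ∧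
        v (2 * y + (W'⁄K).a₁ * x + (W'⁄K).a₃) < 1) := by
      rintro ⟨h1, h2⟩
      exact hns ⟨hx, h1, h2⟩
    have hσx : v (x - σ x) < 1 := by rw [Valuation.map_sub_swap]; exact hσ x hx
    have hσy : v (y - σ y) < 1 := by rw [Valuation.map_sub_swap]; exact hσ y hy
    have hσx1 : v (σ x) ≤ 1 := by
      have : σ x = (σ x - x) + x := by ring
      rw [this]; exact vle_add v (le_of_lt (hσ x hx)) hx
    have hB := sub_eq_zero_or_one_lt_v_px v (W'⁄K) ha₁ ha₂ h
      ((W'.baseChange_nonsingular σ.injective x y).mpr h) hx hσx1 hσx hσy hns'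
    have htor : n • (Point.some x y h -
        Point.some (σ x) (σ y) ((W'.baseChange_nonsingular σ.injective x y).mpr h)) = 0 := by
      rw [← hmap, smul_sub, hX, ← map_nsmul, hX, map_zero, sub_zero]
    have := inG1_torsion_free v hb₂ hb₄ hb₆ hb₈ hn hB htor
    exact (sub_eq_zero.mp this).symm

/-- (ii): `σ X - X` has nonsingular reduction for odd torsion `X` -/
theorem map_sub_not_isSingPt (v : Valuation K Γ₀) (W' : Affine R)
    (ha₁ : v (W'⁄K).a₁ ≤ 1) (ha₂ : v (W'⁄K).a₂ ≤ 1) (ha₃ : v (W'⁄K).a₃ ≤ 1)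
    (ha₄ : v (W'⁄K).a₄ ≤ 1) (ha₆ : v (W'⁄K).a₆ ≤ 1) {r t α β : K} (hr : v r ≤ 1) (ht : v t ≤ 1)
    (nf : NodalNF v ((transl r t) • (W'⁄K)).toAffine α β)
    (σ : K →ₐ[S] K) (hσv : ∀ a : K, v (σ a) = v a)
    (hσr : σ r = r) (hσt : σ t = t) (hσα : σ α = α) (hσβ : σ β = β)
    (hE0 : ∀ P Q : (W'⁄K).Point, ¬ IsSingPt v P → ¬ IsSingPt v Q → ¬ IsSingPt v (P + Q))
    {n : ℕ} (hn : Odd n) (X : (W'⁄K).Point) (hX : n • X = 0) :
    ¬ IsSingPt v (Point.map σ X - X) := by
  by_cases hsing : IsSingPt v X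
  · rcases X with _ | ⟨x, y, h⟩
    · exact absurd hsing (not_isSingPt_zero v)
    · have hmap : Point.map σ (Point.some x y h) = Point.some (σ x) (σ y)
          ((W'.baseChange_nonsingular σ.injective x y).mpr h) := Point.map_some σ h
      have hsingσ : IsSingPt v (Point.map σ (Point.some x y h)) :=
        (isSingPt_map_iff v W' σ hσv _).mpr hsing
      rw [hmap]
      rw [hmap] at hsingσ
      set hσh := (W'.baseChange_nonsingular σ.injective x y).mpr h with hσhdef
      -- the translates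
      have h' : ((transl r t) • (W'⁄K)).toAffine.Nonsingular (x - r) (y - t) := by
        rw [vc_nonsingular_iff, vcX_transl, vcY_transl, sub_add_cancel, sub_add_cancel]
        exact h
      have h'' : ((transl r t) • (W'⁄K)).toAffine.Nonsingular (σ x - r) (σ y - t) := by
        rw [vc_nonsingular_iff, vcX_transl, vcY_transl, sub_add_cancel, sub_add_cancel]
        exact hσh
      have e' : vcHom (W₁ := (W'⁄K)) (transl r t) rfl (Point.some (x - r) (y - t) h')
          = Point.some x y h := by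
        rw [vcHom_apply, vcFun_some]
        simp only [vcX_transl, vcY_transl, sub_add_cancel]
      have e'' : vcHom (W₁ := (W'⁄K)) (transl r t) rfl (Point.some (σ x - r) (σ y - t) h'')
          = Point.some (σ x) (σ y) hσh := by
        rw [vcHom_apply, vcFun_some]
        simp only [vcX_transl, vcY_transl, sub_add_cancel]
      have hnode' : IsNodePt v (Point.some (x - r) (y - t) h') :=
        isNodePt_of_isSingPt v (W'⁄K) ha₁ ha₂ ha₃ ha₄ ha₆ hr ht nf _ (by rw [e']; exact hsing)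
      have hnode'' : IsNodePt v (Point.some (σ x - r) (σ y - t) h'') :=
        isNodePt_of_isSingPt v (W'⁄K) ha₁ ha₂ ha₃ ha₄ ha₆ hr ht nf _ (by rw [e'']; exact hsingσ)
      -- `σ` on `s`, `t`
      have hsσ : σ y - t - α * (σ x - r) = σ (y - t - α * (x - r)) := by
        simp only [map_sub, map_mul, hσr, hσt, hσα]
      have htσ : σ y - t - β * (σ x - r) = σ (y - t - β * (x - r)) := by
        simp only [map_sub, map_mul, hσr, hσt, hσβ]
      -- `v s ≠ v t`
      have hne : v (y - t - α * (x - r)) ≠ v (y - t - β * (x - r)) := by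
        intro heq
        have h2 := not_isNodePt_add_self nf h' hnode'.1 hnode'.2 heq
        have h2' : ¬ IsSingPt v (Point.some x y h + Point.some x y h) := by
          intro hs
          apply h2
          apply isNodePt_of_isSingPt v (W'⁄K) ha₁ ha₂ ha₃ ha₄ ha₆ hr ht nf
          rw [map_add, e']
          exact hs
        obtain ⟨k, hk⟩ := hn
        have h3 := not_isSingPt_nsmul hE0 h2' (k + 1)
        apply h3
        have : (k + 1) • (Point.some x y h + Point.some x y h) = Point.some x y h := by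
          rw [← two_nsmul, ← mul_nsmul']
          have e : (k + 1) * 2 = n + 1 := by omega
          rw [e, succ_nsmul, hX, zero_add]
        rw [this]
        exact hsing
      have h4 := not_isNodePt_sub nf h' h'' hnode'.1 hnode''.1
        (by rw [hsσ, hσv]) (by rw [htσ, hσv]) hne
      intro hs
      apply h4
      apply isNodePt_of_isSingPt v (W'⁄K) ha₁ ha₂ ha₃ ha₄ ha₆ hr ht nf
      rw [map_sub, e', e'']
      exact hs
  · have h1 : ¬ IsSingPt v (Point.map σ X) := by
      rw [isSingPt_map_iff v W' σ hσv]; exact hsing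
    rw [sub_eq_add_neg]
    exact hE0 _ _ h1 (not_isSingPt_neg ha₁ hsing)

/-- `(σ - 1)² = 0` on odd torsion prime to the residue characteristic -/
theorem map_map_sub_eq (v : Valuation K Γ₀) (W' : Affine R)
    (ha₁ : v (W'⁄K).a₁ ≤ 1) (ha₂ : v (W'⁄K).a₂ ≤ 1) (ha₃ : v (W'⁄K).a₃ ≤ 1)
    (ha₄ : v (W'⁄K).a₄ ≤ 1) (ha₆ : v (W'⁄K).a₆ ≤ 1) {r t α β : K} (hr : v r ≤ 1) (ht : v t ≤ 1)
    (nf : NodalNF v ((transl r t) • (W'⁄K)).toAffine α β)
    (σ : K →ₐ[S] K) (hσv : ∀ a : K, v (σ a) = v a)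
    (hσ : ∀ a : K, v a ≤ 1 → v (σ a - a) < 1)
    (hσr : σ r = r) (hσt : σ t = t) (hσα : σ α = α) (hσβ : σ β = β)
    (hE0 : ∀ P Q : (W'⁄K).Point, ¬ IsSingPt v P → ¬ IsSingPt v Q → ¬ IsSingPt v (P + Q))
    {n : ℕ} (hn : Odd n) (hn1 : v (n : K) = 1) (X : (W'⁄K).Point) (hX : n • X = 0) :
    Point.map σ (Point.map σ X - X) = Point.map σ X - X := by
  apply map_eq_self_of_not_isSingPt v W' ha₁ ha₂ ha₃ ha₄ ha₆ σ hσ hn1
  · rw [smul_sub, ← map_nsmul, hX, map_zero, sub_zero]
  · exact map_sub_not_isSingPt v W' ha₁ ha₂ ha₃ ha₄ ha₆ hr ht nf σ hσv hσr hσt hσα hσβ hE0 hn X hX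

end Galois

end Fermat.Agent.MultRed
end MergeWrap_Lib_MultRed_Unipotent
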