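import Mathlib
import Fermat.Prelude.Def_FLTPrelim_Ramification
import Fermat.Agent.MUL.Orig.Lib.MultRed.Normal
import Fermat.Agent.MUL.Orig.S05.H5.Inertia
import Fermat.Agent.MUL.Orig.S05.H5.IntVal
import Fermat.Agent.MUL.Orig.Lib.MultRed.Core
import Fermat.Agent.MUL.Lib.MultRed.Unipotent

section MergeWrap_Lib_MultRed_NormalGal -- from Lib/MultRed/NormalGal.lean

set_option autoImplicit false

namespace Fermat.Agent.MultRed

open WeierstrassCurve S05H5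

/-- The normal-form data of `W` at the place `A`: a centering `(r, t)` and the two tangent
directions `α, β` at the node, all inertia-invariant. -/
structure NodalData (A : ValuationSubring (AlgebraicClosure ℚ)) (W : WeierstrassCurve ℤ)
    (r t α β : AlgebraicClosure ℚ) : Prop where
  centering : IsCentering A.valuation (W⁄(AlgebraicClosure ℚ)) r t
  α_int : A.valuation α ≤ 1
  β_int : A.valuation β ≤ 1
  sum : α + β = -(transl r t • (W⁄(AlgebraicClosure ℚ))).a₁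
  prod : α * β = -(transl r t • (W⁄(AlgebraicClosure ℚ))).a₂
  unit : A.valuation (α - β) = 1
  fixed : ∀ σ ∈ A.inertiaSubgroupIn ℚ, σ r = r ∧ σ t = t ∧ σ α = α ∧ σ β = β

theorem baseChange_coeff_int (W : WeierstrassCurve ℤ) (A : ValuationSubring (AlgebraicClosure ℚ)) :
    A.valuation (W⁄(AlgebraicClosure ℚ)).a₁ ≤ 1 ∧ A.valuation (W⁄(AlgebraicClosure ℚ)).a₂ ≤ 1 ∧
    A.valuation (W⁄(AlgebraicClosure ℚ)).a₃ ≤ 1 ∧ A.valuation (W⁄(AlgebraicClosure ℚ)).a₄ ≤ 1 ∧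
    A.valuation (W⁄(AlgebraicClosure ℚ)).a₆ ≤ 1 := by
  refine ⟨?_, ?_, ?_, ?_, ?_⟩ <;>
  · simp only [WeierstrassCurve.baseChange, WeierstrassCurve.map, eq_intCast]
    exact vle_intCast _ _

theorem baseChange_coeff_fixed (W : WeierstrassCurve ℤ)
    (σ : AlgebraicClosure ℚ ≃ₐ[ℚ] AlgebraicClosure ℚ) :
    σ (W⁄(AlgebraicClosure ℚ)).a₁ = (W⁄(AlgebraicClosure ℚ)).a₁ ∧
    σ (W⁄(AlgebraicClosure ℚ)).a₂ = (W⁄(AlgebraicClosure ℚ)).a₂ ∧
    σ (W⁄(AlgebraicClosure ℚ)).a₃ = (W⁄(AlgebraicClosure ℚ)).a₃ ∧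
    σ (W⁄(AlgebraicClosure ℚ)).a₄ = (W⁄(AlgebraicClosure ℚ)).a₄ ∧
    σ (W⁄(AlgebraicClosure ℚ)).a₆ = (W⁄(AlgebraicClosure ℚ)).a₆ := by
  refine ⟨?_, ?_, ?_, ?_, ?_⟩ <;>
  · simp only [WeierstrassCurve.baseChange, WeierstrassCurve.map, eq_intCast, map_intCast]

/-- **MR2, Galois form**: normal-form data exist at every place over a multiplicative prime. -/
theorem exists_nodalData (W : WeierstrassCurve ℤ) {q : ℕ} (hq : q.Prime) (hΔ : (q : ℤ) ∣ W.Δ)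
    (hc₄ : ¬ (q : ℤ) ∣ W.c₄) (A : ValuationSubring (AlgebraicClosure ℚ))
    (hA : A.LiesOverPrime q) :
    ∃ r t α β : AlgebraicClosure ℚ, NodalData A W r t α β := by
  have hvq : A.valuation ((q : ℕ) : AlgebraicClosure ℚ) < 1 := A.mem_nonunits_iff.mp hA
  have h2 : (2 : AlgebraicClosure ℚ) ≠ 0 := two_ne_zero
  have h3 : (3 : AlgebraicClosure ℚ) ≠ 0 := three_ne_zero
  obtain ⟨ha₁, ha₂, ha₃, ha₄, ha₆⟩ := baseChange_coeff_int W A
  have hΔ' : A.valuation (W⁄(AlgebraicClosure ℚ)).Δ < 1 := by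
    have : (W⁄(AlgebraicClosure ℚ)).Δ = ((W.Δ : ℤ) : AlgebraicClosure ℚ) := by
      rw [WeierstrassCurve.baseChange, WeierstrassCurve.map_Δ, eq_intCast]
    rw [this]
    exact v_intCast_lt_one _ hvq hΔ
  have hc₄' : A.valuation (W⁄(AlgebraicClosure ℚ)).c₄ = 1 := by
    have : (W⁄(AlgebraicClosure ℚ)).c₄ = ((W.c₄ : ℤ) : AlgebraicClosure ℚ) := by
      rw [WeierstrassCurve.baseChange, WeierstrassCurve.map_c₄, eq_intCast]
    rw [this]
    exact v_intCast_eq_one _ hq hvq hc₄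
  obtain ⟨r, t, hC⟩ := exists_isCentering A.valuation (W⁄(AlgebraicClosure ℚ)) h2 h3
    ha₁ ha₂ ha₃ ha₄ ha₆ hΔ' hc₄'
  obtain ⟨hb₁, hb₂, -, -, -⟩ := hC.integral ha₁ ha₂
  have hb : A.valuation ((transl r t • (W⁄(AlgebraicClosure ℚ))).a₁ ^ 2 +
      4 * (transl r t • (W⁄(AlgebraicClosure ℚ))).a₂) = 1 := hC.b₂
  obtain ⟨α, β, hα, hβ, hsum, hprod, hαβ⟩ := exists_tangent_roots A.valuation h2 hb₁ hb₂ hb
  refine ⟨r, t, α, β, hC, hα, hβ, hsum, hprod, hαβ, ?_⟩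
  intro σ hσ
  have hσv : ∀ a : AlgebraicClosure ℚ, A.valuation a ≤ 1 →
      A.valuation ((σ : AlgebraicClosure ℚ →+* AlgebraicClosure ℚ) a - a) < 1 := by
    intro a ha
    exact A.mem_nonunits_iff.mp
      (inertiaIn_sub_mem_nonunits A σ hσ ((A.valuation_le_one_iff a).mp ha))
  obtain ⟨f₁, f₂, f₃, f₄, -⟩ := baseChange_coeff_fixed W σ
  obtain ⟨hr, ht⟩ := hC.map_eq h2 (σ : AlgebraicClosure ℚ →+* AlgebraicClosure ℚ)
    f₁ f₂ f₃ f₄ hσv
  have g₁ : (σ : AlgebraicClosure ℚ →+* AlgebraicClosure ℚ)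
      (transl r t • (W⁄(AlgebraicClosure ℚ))).a₁ = (transl r t • (W⁄(AlgebraicClosure ℚ))).a₁ := by
    rw [transl_a₁]
    exact f₁
  have g₂ : (σ : AlgebraicClosure ℚ →+* AlgebraicClosure ℚ)
      (transl r t • (W⁄(AlgebraicClosure ℚ))).a₂ = (transl r t • (W⁄(AlgebraicClosure ℚ))).a₂ := by
    rw [transl_a₂, map_add, map_mul, map_ofNat]
    have hr' : (σ : AlgebraicClosure ℚ →+* AlgebraicClosure ℚ) r = r := hr
    have f₂' : (σ : AlgebraicClosure ℚ →+* AlgebraicClosure ℚ) (W⁄(AlgebraicClosure ℚ)).a₂ =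
      (W⁄(AlgebraicClosure ℚ)).a₂ := f₂
    rw [hr', f₂']
  obtain ⟨hα', hβ'⟩ := tangent_roots_map_eq A.valuation hα hβ hsum hprod hαβ
    (σ : AlgebraicClosure ℚ →+* AlgebraicClosure ℚ) g₁ g₂ hσv
  exact ⟨hr, ht, hα', hβ'⟩

end Fermat.Agent.MultRed
end MergeWrap_Lib_MultRed_NormalGal

section MergeWrap_Lib_MultRed_NormalQbar -- from Lib/MultRed/NormalQbar.lean

/-!
# MultRed / NormalQbar: the nodal normal form at a multiplicative prime, Galois form over `Q̄`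

Repackaging of helper78's `exists_nodalData` (`NormalGal.lean`) as a `NodalNF` of the translate of
`(W.map (Int.castRingHom ℚ))⁄Q̄` (the shape used by `Main.lean`).
-/

set_option autoImplicit false

open WeierstrassCurve WeierstrassCurve.Affine

namespace Fermat.Agent.MultRed

theorem baseChange_map_int (W : WeierstrassCurve ℤ) :
    ((W.map (Int.castRingHom ℚ))⁄(AlgebraicClosure ℚ)) = (W⁄(AlgebraicClosure ℚ)) := by
  show (W.map (Int.castRingHom ℚ)).map (algebraMap ℚ (AlgebraicClosure ℚ))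
    = W.map (algebraMap ℤ (AlgebraicClosure ℚ))
  rw [WeierstrassCurve.map_map]
  congr 1

theorem exists_nodalNF (W : WeierstrassCurve ℤ) {q : ℕ} [Fact q.Prime] (hΔ : (q : ℤ) ∣ W.Δ)
    (hc₄ : ¬ (q : ℤ) ∣ W.c₄)
    (A : ValuationSubring (AlgebraicClosure ℚ)) (hA : A.LiesOverPrime q) :
    ∃ r t α β : AlgebraicClosure ℚ, A.valuation r ≤ 1 ∧ A.valuation t ≤ 1 ∧
      NodalNF A.valuation
        ((transl r t) • ((W.map (Int.castRingHom ℚ))⁄(AlgebraicClosure ℚ))).toAffine α β ∧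
      ∀ σ : AlgebraicClosure ℚ ≃ₐ[ℚ] AlgebraicClosure ℚ, σ ∈ A.inertiaSubgroupIn ℚ →
        σ r = r ∧ σ t = t ∧ σ α = α ∧ σ β = β := by
  obtain ⟨r, t, α, β, h⟩ := exists_nodalData W (Fact.out : q.Prime) hΔ hc₄ A hA
  refine ⟨r, t, α, β, h.centering.r_int, h.centering.t_int, ?_, h.fixed⟩
  rw [baseChange_map_int]
  exact
    { a₃ := h.centering.a₃
      a₄ := h.centering.a₄
      va₆ := h.centering.a₆
      hsum := h.sum
      hprod := h.prod
      vα := h.α_int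
      vβ := h.β_int
      vαβ := h.unit }

end Fermat.Agent.MultRed
end MergeWrap_Lib_MultRed_NormalQbar
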