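import Mathlib
import Fermat.Agent.MUL.Lib.MultRed.Unipotent
import Fermat.Agent.MUL.Lib.MultRed.Main

section MergeWrap_Lib_MultRed_Decomp -- from Lib/MultRed/Decomp.lean

/-!
# MultRed / Decomp (MR5, piece B; owner: helper4): the decomposition group at a node

* `IsCentering.unique`: the centering `(r, t)` of a Weierstrass equation with multiplicative
  reduction is unique; hence it is fixed by every automorphism preserving the valuation
  (`IsCentering.map_eq_of_val`).
* `tangent_roots_map_or`: such an automorphism fixes or swaps the tangent directions `α, β`.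
* `map_add_not_isSingPt`: if `σ` swaps `α` and `β`, then `σ X + X` has nonsingular reduction for
  every `X` of odd order.
-/

set_option autoImplicit false

namespace Fermat.Agent.MultRed

open WeierstrassCurve WeierstrassCurve.Affine S05H5 S05H65 S05H75 Fermat.Agent.VarChange

section Unique

variable {K : Type*} [Field K] {Γ₀ : Type*} [LinearOrderedCommGroupWithZero Γ₀]

theorem transl_transl (W : WeierstrassCurve K) (r t ρ τ : K) :
    transl ρ τ • (transl r t • W) = transl (r + ρ) (t + τ) • W := by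
  ext
  · rw [transl_a₁, transl_a₁, transl_a₁]
  · rw [transl_a₂, transl_a₂, transl_a₂]; ring
  · rw [transl_a₃, transl_a₃, transl_a₃, transl_a₁]; ring
  · rw [transl_a₄, transl_a₄, transl_a₄, transl_a₂, transl_a₁]; ring
  · rw [transl_a₆, transl_a₆, transl_a₆, transl_a₄, transl_a₂, transl_a₃, transl_a₁]; ring

/-- in normal form the only centering is `(0, 0)` -/
theorem centering_eq_zero_of_normal (v : Valuation K Γ₀) (W : WeierstrassCurve K)
    (h2 : (2 : K) ≠ 0) (h₃ : W.a₃ = 0) (h₄ : W.a₄ = 0) (h₆ : v W.a₆ < 1) (hb₂ : v W.b₂ = 1)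
    {ρ τ : K} (hC : IsCentering v W ρ τ) : ρ = 0 ∧ τ = 0 := by
  have e₃ : ρ * W.a₁ + 2 * τ = 0 := by
    have := hC.a₃
    rw [transl_a₃, h₃] at this
    linear_combination this
  have e₄ : 2 * ρ * W.a₂ - τ * W.a₁ + 3 * ρ ^ 2 = 0 := by
    have := hC.a₄
    rw [transl_a₄, h₄] at this
    linear_combination this
  have hb : W.b₂ = W.a₁ ^ 2 + 4 * W.a₂ := rfl
  have key : ρ * (W.b₂ + 6 * ρ) = 0 := by
    rw [hb]
    linear_combination 2 * e₄ + W.a₁ * e₃
  rcases mul_eq_zero.mp key with h | h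
  · refine ⟨h, ?_⟩
    rw [h, zero_mul, zero_add] at e₃
    exact (mul_eq_zero.mp e₃).resolve_left h2
  · exfalso
    have e₆ : (transl ρ τ • W).a₆ - W.a₆ = ρ ^ 2 * W.a₂ + ρ ^ 3 - τ ^ 2 - ρ * τ * W.a₁ := by
      rw [transl_a₆, h₃, h₄]; ring
    have h4 : 4 * ((transl ρ τ • W).a₆ - W.a₆) = ρ ^ 2 * W.b₂ + 4 * ρ ^ 3 := by
      rw [e₆, hb]
      linear_combination (-(ρ * W.a₁ + 2 * τ)) * e₃
    have h432 : 432 * ((transl ρ τ • W).a₆ - W.a₆) = W.b₂ ^ 3 := by
      linear_combination 108 * h4 + (-(W.b₂ ^ 2) + 6 * ρ * W.b₂ + 72 * ρ ^ 2) * h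
    have hv : v (432 * ((transl ρ τ • W).a₆ - W.a₆)) < 1 := by
      rw [map_mul]
      have h1 : v ((transl ρ τ • W).a₆ - W.a₆) < 1 := vlt_sub v hC.a₆ h₆
      calc v (432 : K) * v ((transl ρ τ • W).a₆ - W.a₆)
          ≤ 1 * v ((transl ρ τ • W).a₆ - W.a₆) := mul_le_mul_left (vle_ofNat v 432) _
        _ < 1 := by rw [one_mul]; exact h1
    rw [h432, map_pow, hb₂, one_pow] at hv
    exact lt_irrefl _ hv

/-- **the centering is unique** -/
theorem IsCentering.unique {v : Valuation K Γ₀} {W : WeierstrassCurve K} (h2 : (2 : K) ≠ 0)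
    {r₁ t₁ r₂ t₂ : K} (hC₁ : IsCentering v W r₁ t₁) (hC₂ : IsCentering v W r₂ t₂) :
    r₁ = r₂ ∧ t₁ = t₂ := by
  have e : transl (r₂ - r₁) (t₂ - t₁) • (transl r₁ t₁ • W) = transl r₂ t₂ • W := by
    rw [transl_transl]
    congr 2 <;> ring
  have hC : IsCentering v (transl r₁ t₁ • W) (r₂ - r₁) (t₂ - t₁) :=
    { r_int := vle_sub v hC₂.r_int hC₁.r_int
      t_int := vle_sub v hC₂.t_int hC₁.t_int
      a₃ := by rw [e]; exact hC₂.a₃
      a₄ := by rw [e]; exact hC₂.a₄
      a₆ := by rw [e]; exact hC₂.a₆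
      b₂ := by rw [e]; exact hC₂.b₂ }
  obtain ⟨h1, h2'⟩ := centering_eq_zero_of_normal v (transl r₁ t₁ • W) h2 hC₁.a₃ hC₁.a₄ hC₁.a₆
    hC₁.b₂ hC
  exact ⟨(sub_eq_zero.mp h1).symm, (sub_eq_zero.mp h2').symm⟩

/-- **the centering is fixed by the decomposition group** -/
theorem IsCentering.map_eq_of_val {v : Valuation K Γ₀} {W : WeierstrassCurve K} {r t : K}
    (hC : IsCentering v W r t) (h2 : (2 : K) ≠ 0) (σ : K →+* K)
    (hσ₁ : σ W.a₁ = W.a₁) (hσ₂ : σ W.a₂ = W.a₂) (hσ₃ : σ W.a₃ = W.a₃) (hσ₄ : σ W.a₄ = W.a₄)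
    (hσ₆ : σ W.a₆ = W.a₆) (hσv : ∀ a : K, v (σ a) = v a) : σ r = r ∧ σ t = t := by
  have hC' : IsCentering v W (σ r) (σ t) :=
    { r_int := by rw [hσv]; exact hC.r_int
      t_int := by rw [hσv]; exact hC.t_int
      a₃ := by
        have := congrArg σ hC.a₃
        rw [transl_a₃] at this ⊢
        simpa only [map_add, map_mul, hσ₁, hσ₃, map_ofNat, map_zero] using this
      a₄ := by
        have := congrArg σ hC.a₄
        rw [transl_a₄] at this ⊢
        simpa only [map_add, map_sub, map_mul, map_pow, hσ₁, hσ₂, hσ₄, map_ofNat, map_zero]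
          using this
      a₆ := by
        have e : (transl (σ r) (σ t) • W).a₆ = σ (transl r t • W).a₆ := by
          rw [transl_a₆, transl_a₆]
          simp only [map_add, map_sub, map_mul, map_pow, hσ₁, hσ₂, hσ₃, hσ₄, hσ₆]
        rw [e, hσv]
        exact hC.a₆
      b₂ := by
        have e : (transl (σ r) (σ t) • W).b₂ = σ (transl r t • W).b₂ := by
          rw [transl_b₂, transl_b₂]
          simp only [WeierstrassCurve.b₂, map_add, map_mul, map_pow, hσ₁, hσ₂, map_ofNat]
        rw [e, hσv]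
        exact hC.b₂ }
  obtain ⟨h1, h2'⟩ := IsCentering.unique h2 hC hC'
  exact ⟨h1.symm, h2'.symm⟩

/-- an automorphism fixing the coefficients fixes or swaps the tangent directions -/
theorem tangent_roots_map_or {a₁ a₂ α β : K} (hsum : α + β = -a₁) (hprod : α * β = -a₂)
    (hne : α ≠ β) (σ : K →+* K) (hσ₁ : σ a₁ = a₁) (hσ₂ : σ a₂ = a₂) :
    (σ α = α ∧ σ β = β) ∨ (σ α = β ∧ σ β = α) := by
  have key : ∀ x y : K, x + y = -a₁ → x * y = -a₂ → σ x = x ∨ σ x = y := by
    intro x y hs hp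
    have h1 : x ^ 2 + a₁ * x - a₂ = 0 := by linear_combination x * hs - hp
    have h2 : σ x ^ 2 + a₁ * σ x - a₂ = 0 := by
      have := congrArg σ h1
      simpa only [map_sub, map_add, map_mul, map_pow, hσ₁, hσ₂, map_zero] using this
    have hfac : (σ x - x) * (σ x - y) = 0 := by
      linear_combination h2 + (-σ x) * hs + hp
    rcases mul_eq_zero.mp hfac with h | h
    · exact Or.inl (sub_eq_zero.mp h)
    · exact Or.inr (sub_eq_zero.mp h)
  have hinj : σ α ≠ σ β := fun h => hne (σ.injective h)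
  rcases key α β hsum hprod with hα | hα
  · rcases key β α (by rw [add_comm]; exact hsum) (by rw [mul_comm]; exact hprod) with hβ | hβ
    · exact Or.inl ⟨hα, hβ⟩
    · exact absurd (hα.trans hβ.symm) hinj
  · rcases key β α (by rw [add_comm]; exact hsum) (by rw [mul_comm]; exact hprod) with hβ | hβ
    · exact absurd (hα.trans hβ.symm) hinj
    · exact Or.inr ⟨hα, hβ⟩

end Unique

section Swap

variable {K : Type*} [Field K] [DecidableEq K] {Γ₀ : Type*} [LinearOrderedCommGroupWithZero Γ₀]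
variable {R S : Type*} [CommRing R] [CommRing S] [Algebra R S] [Algebra R K] [Algebra S K]
  [IsScalarTower R S K]

/-- a point of odd order reducing to the node has `v s ≠ v t` -/
theorem v_s_ne_v_t_of_odd (v : Valuation K Γ₀) (W : Affine K)
    (ha₁ : v W.a₁ ≤ 1) (ha₂ : v W.a₂ ≤ 1) (ha₃ : v W.a₃ ≤ 1)
    (ha₄ : v W.a₄ ≤ 1) (ha₆ : v W.a₆ ≤ 1) {r t α β : K} (hr : v r ≤ 1) (ht : v t ≤ 1)
    (nf : NodalNF v ((transl r t) • W).toAffine α β)
    (hE0 : ∀ P Q : W.Point, ¬ IsSingPt v P → ¬ IsSingPt v Q → ¬ IsSingPt v (P + Q))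
    {n : ℕ} (hn : Odd n) {x y : K} (h : W.Nonsingular x y)
    (hX : n • (Point.some x y h) = 0) (hsing : IsSingPt v (Point.some x y h)) :
    v (y - t - α * (x - r)) ≠ v (y - t - β * (x - r)) := by
  have h' : ((transl r t) • W).toAffine.Nonsingular (x - r) (y - t) := by
    rw [vc_nonsingular_iff, vcX_transl, vcY_transl, sub_add_cancel, sub_add_cancel]
    exact h
  have e' : vcHom (W₁ := W) (transl r t) rfl (Point.some (x - r) (y - t) h')
      = Point.some x y h := by
    rw [vcHom_apply, vcFun_some]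
    simp only [vcX_transl, vcY_transl, sub_add_cancel]
  have hnode' : IsNodePt v (Point.some (x - r) (y - t) h') :=
    isNodePt_of_isSingPt v W ha₁ ha₂ ha₃ ha₄ ha₆ hr ht nf _ (by rw [e']; exact hsing)
  intro heq
  have h2 := not_isNodePt_add_self nf h' hnode'.1 hnode'.2 heq
  have h2' : ¬ IsSingPt v (Point.some x y h + Point.some x y h) := by
    intro hs
    apply h2
    apply isNodePt_of_isSingPt v W ha₁ ha₂ ha₃ ha₄ ha₆ hr ht nf
    rw [map_add, e']
    exact hs
  obtain ⟨k, hk⟩ := hn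
  have h3 := not_isSingPt_nsmul hE0 h2' (k + 1)
  apply h3
  have : (k + 1) • (Point.some x y h + Point.some x y h) = Point.some x y h := by
    rw [← two_nsmul, ← mul_nsmul']
    have e : (k + 1) * 2 = n + 1 := by omega
    rw [e, succ_nsmul, hX, zero_add]
  rw [this]
  exact hsing

/-- if `σ` preserves the valuation, fixes the centering and swaps the tangent directions, then
`σ X + X` has nonsingular reduction for `X` of odd order -/
theorem map_add_not_isSingPt (v : Valuation K Γ₀) (W' : Affine R)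
    (ha₁ : v (W'⁄K).a₁ ≤ 1) (ha₂ : v (W'⁄K).a₂ ≤ 1) (ha₃ : v (W'⁄K).a₃ ≤ 1)
    (ha₄ : v (W'⁄K).a₄ ≤ 1) (ha₆ : v (W'⁄K).a₆ ≤ 1) {r t α β : K} (hr : v r ≤ 1) (ht : v t ≤ 1)
    (nf : NodalNF v ((transl r t) • (W'⁄K)).toAffine α β)
    (σ : K →ₐ[S] K) (hσv : ∀ a : K, v (σ a) = v a)
    (hσr : σ r = r) (hσt : σ t = t) (hσα : σ α = β) (hσβ : σ β = α)
    (hE0 : ∀ P Q : (W'⁄K).Point, ¬ IsSingPt v P → ¬ IsSingPt v Q → ¬ IsSingPt v (P + Q))
    {n : ℕ} (hn : Odd n) (X : (W'⁄K).Point) (hX : n • X = 0) :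
    ¬ IsSingPt v (Point.map σ X + X) := by
  by_cases hsing : IsSingPt v X
  · rcases X with _ | ⟨x, y, h⟩
    · exact absurd hsing (not_isSingPt_zero v)
    · have hmap : Point.map σ (Point.some x y h) = Point.some (σ x) (σ y)
          ((W'.baseChange_nonsingular σ.injective x y).mpr h) := Point.map_some σ h
      have hsingσ : IsSingPt v (Point.map σ (Point.some x y h)) :=
        (isSingPt_map_iff v W' σ hσv _).mpr hsing
      rw [hmap]
      rw [hmap] at hsingσ
      set hσh := (W'.baseChange_nonsingular σ.injective x y).mpr h with hσhdef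
      -- the translates
      have h' : ((transl r t) • (W'⁄K)).toAffine.Nonsingular (x - r) (y - t) := by
        rw [vc_nonsingular_iff, vcX_transl, vcY_transl, sub_add_cancel, sub_add_cancel]
        exact h
      have h'' : ((transl r t) • (W'⁄K)).toAffine.Nonsingular (σ x - r) (σ y - t) := by
        rw [vc_nonsingular_iff, vcX_transl, vcY_transl, sub_add_cancel, sub_add_cancel]
        exact hσh
      have hneg' : ((transl r t) • (W'⁄K)).toAffine.Nonsingular (x - r)
          (((transl r t) • (W'⁄K)).toAffine.negY (x - r) (y - t)) :=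
        (Affine.nonsingular_neg _ _).mpr h'
      have e' : vcHom (W₁ := (W'⁄K)) (transl r t) rfl (Point.some (x - r) (y - t) h')
          = Point.some x y h := by
        rw [vcHom_apply, vcFun_some]
        simp only [vcX_transl, vcY_transl, sub_add_cancel]
      have e'' : vcHom (W₁ := (W'⁄K)) (transl r t) rfl (Point.some (σ x - r) (σ y - t) h'')
          = Point.some (σ x) (σ y) hσh := by
        rw [vcHom_apply, vcFun_some]
        simp only [vcX_transl, vcY_transl, sub_add_cancel]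
      have hnode' : IsNodePt v (Point.some (x - r) (y - t) h') :=
        isNodePt_of_isSingPt v (W'⁄K) ha₁ ha₂ ha₃ ha₄ ha₆ hr ht nf _ (by rw [e']; exact hsing)
      have hnode'' : IsNodePt v (Point.some (σ x - r) (σ y - t) h'') :=
        isNodePt_of_isSingPt v (W'⁄K) ha₁ ha₂ ha₃ ha₄ ha₆ hr ht nf _ (by rw [e'']; exact hsingσ)
      -- `σ` on `s`, `t`
      have hsσ : σ y - t - α * (σ x - r) = σ (y - t - β * (x - r)) := by
        simp only [map_sub, map_mul, hσr, hσt, hσβ]
      have htσ : σ y - t - β * (σ x - r) = σ (y - t - α * (x - r)) := by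
        simp only [map_sub, map_mul, hσr, hσt, hσα]
      -- `s`, `t` of `-X'`
      have h1 := nf.hsum
      have h3 := nf.a₃
      have hsneg : ((transl r t) • (W'⁄K)).toAffine.negY (x - r) (y - t) - α * (x - r)
          = -(y - t - β * (x - r)) := by
        simp only [Affine.negY]
        linear_combination (-(x - r)) * h1 - h3
      have htneg : ((transl r t) • (W'⁄K)).toAffine.negY (x - r) (y - t) - β * (x - r)
          = -(y - t - α * (x - r)) := by
        simp only [Affine.negY]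
        linear_combination (-(x - r)) * h1 - h3
      have hne := v_s_ne_v_t_of_odd v (W'⁄K) ha₁ ha₂ ha₃ ha₄ ha₆ hr ht nf hE0 hn h hX hsing
      have h4 := not_isNodePt_sub nf hneg' h'' hnode'.1 hnode''.1
        (by rw [hsneg, hsσ, hσv, Valuation.map_neg])
        (by rw [htneg, htσ, hσv, Valuation.map_neg])
        (by rw [hsneg, htneg, Valuation.map_neg, Valuation.map_neg]; exact hne.symm)
      intro hs
      apply h4
      apply isNodePt_of_isSingPt v (W'⁄K) ha₁ ha₂ ha₃ ha₄ ha₆ hr ht nf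
      have eneg : Point.some (x - r) (((transl r t) • (W'⁄K)).toAffine.negY (x - r) (y - t)) hneg'
          = -Point.some (x - r) (y - t) h' := (Point.neg_some h').symm
      rw [eneg, sub_neg_eq_add, map_add, e', e'']
      exact hs
  · have h1 : ¬ IsSingPt v (Point.map σ X) := by
      rw [isSingPt_map_iff v W' σ hσv]; exact hsing
    exact hE0 _ _ h1 hsing

end Swap

end Fermat.Agent.MultRed
end MergeWrap_Lib_MultRed_Decomp

section MergeWrap_Lib_MultRed_DecompQbar -- from Lib/MultRed/DecompQbar.lean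

/-!
# MultRed / DecompQbar (MR5, piece B, Galois form; owner: helper4)

`W / ℤ` with multiplicative reduction at `q` (any `q`), `A | q` a valuation subring of `Q̄`.

* `inertia_sub_inE0v`: for `σ` in the inertia group and `P` of odd order (`q ∣ n` allowed),
  `σ P - P` has nonsingular reduction.
* `decomp_sign`: for `σ` in the decomposition group, either `σ P - P` has nonsingular reduction for
  all `P` of odd order, or `σ P + P` has, for all `P` of odd order.
-/

set_option autoImplicit false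

open WeierstrassCurve WeierstrassCurve.Affine

namespace Fermat.Agent.MultRed

open S05H5 S05H65 S05H75

theorem intCoeff_map_int (W : WeierstrassCurve ℤ) (A : ValuationSubring (AlgebraicClosure ℚ)) :
    IntCoeff A ((W.map (Int.castRingHom ℚ))⁄(AlgebraicClosure ℚ)).toAffine :=
  { mem_a₁ := by
      show algebraMap ℚ (AlgebraicClosure ℚ) ((Int.castRingHom ℚ) W.a₁) ∈ A
      rw [Fermat.Agent.EllRed.algebraMap_intCast_rat]; exact intCast_mem A _
    mem_a₂ := by
      show algebraMap ℚ (AlgebraicClosure ℚ) ((Int.castRingHom ℚ) W.a₂) ∈ A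
      rw [Fermat.Agent.EllRed.algebraMap_intCast_rat]; exact intCast_mem A _
    mem_a₃ := by
      show algebraMap ℚ (AlgebraicClosure ℚ) ((Int.castRingHom ℚ) W.a₃) ∈ A
      rw [Fermat.Agent.EllRed.algebraMap_intCast_rat]; exact intCast_mem A _
    mem_a₄ := by
      show algebraMap ℚ (AlgebraicClosure ℚ) ((Int.castRingHom ℚ) W.a₄) ∈ A
      rw [Fermat.Agent.EllRed.algebraMap_intCast_rat]; exact intCast_mem A _
    mem_a₆ := by
      show algebraMap ℚ (AlgebraicClosure ℚ) ((Int.castRingHom ℚ) W.a₆) ∈ A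
      rw [Fermat.Agent.EllRed.algebraMap_intCast_rat]; exact intCast_mem A _ }

section

variable (W : WeierstrassCurve ℤ) {q : ℕ} [Fact q.Prime] (hΔ : (q : ℤ) ∣ W.Δ)
  (hc₄ : ¬ (q : ℤ) ∣ W.c₄) [DecidableEq (AlgebraicClosure ℚ)]
  (A : ValuationSubring (AlgebraicClosure ℚ)) (hA : A.LiesOverPrime q)

include hΔ hc₄ hA

/-- **MR5 (B)**: an element of the decomposition group at a multiplicative prime acts on the
component group through a sign. -/
theorem decomp_sign (σ : AlgebraicClosure ℚ ≃ₐ[ℚ] AlgebraicClosure ℚ)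
    (hσ : σ ∈ A.decompositionSubgroup ℚ) :
    (∀ {n : ℕ}, Odd n → ∀ P : ((W.map (Int.castRingHom ℚ))⁄(AlgebraicClosure ℚ)).Point,
      n • P = 0 → InE0v A (σ • P - P)) ∨
    (∀ {n : ℕ}, Odd n → ∀ P : ((W.map (Int.castRingHom ℚ))⁄(AlgebraicClosure ℚ)).Point,
      n • P = 0 → InE0v A (σ • P + P)) := by
  have hq : q.Prime := Fact.out
  obtain ⟨r, t, α, β, hnd⟩ := exists_nodalData W hq hΔ hc₄ A hA
  have hint := intCoeff_map_int W A
  have hbc := baseChange_map_int W
  have hC : IsCentering A.valuation ((W.map (Int.castRingHom ℚ))⁄(AlgebraicClosure ℚ)) r t := by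
    rw [hbc]; exact hnd.centering
  have nf : NodalNF A.valuation
      ((transl r t) • ((W.map (Int.castRingHom ℚ))⁄(AlgebraicClosure ℚ))).toAffine α β := by
    rw [hbc]
    exact
      { a₃ := hnd.centering.a₃
        a₄ := hnd.centering.a₄
        va₆ := hnd.centering.a₆
        hsum := hnd.sum
        hprod := hnd.prod
        vα := hnd.α_int
        vβ := hnd.β_int
        vαβ := hnd.unit }
  have : Algebra.IsAlgebraic ℚ (AlgebraicClosure ℚ) := AlgebraicClosure.isAlgebraic ℚ
  have hσv : ∀ a : AlgebraicClosure ℚ, A.valuation (σ.toAlgHom a) = A.valuation a :=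
    fun a => Fermat.Agent.S13Two.decomp_val_eq A σ hσ a
  have hE0 : ∀ P Q : ((W.map (Int.castRingHom ℚ))⁄(AlgebraicClosure ℚ)).Point,
      ¬ IsSingPt A.valuation P → ¬ IsSingPt A.valuation Q → ¬ IsSingPt A.valuation (P + Q) := by
    intro P Q hP hQ
    rw [not_isSingPt_iff_inE0v] at hP hQ ⊢
    exact inE0v_add hint hP hQ
  -- `σ` fixes the coefficients
  have c : ∀ a : ℚ, σ (algebraMap ℚ (AlgebraicClosure ℚ) a) = algebraMap ℚ (AlgebraicClosure ℚ) a :=
    fun a => σ.commutes a
  have c₁ : (σ : AlgebraicClosure ℚ →+* AlgebraicClosure ℚ)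
      ((W.map (Int.castRingHom ℚ))⁄(AlgebraicClosure ℚ)).a₁
      = ((W.map (Int.castRingHom ℚ))⁄(AlgebraicClosure ℚ)).a₁ := c _
  have c₂ : (σ : AlgebraicClosure ℚ →+* AlgebraicClosure ℚ)
      ((W.map (Int.castRingHom ℚ))⁄(AlgebraicClosure ℚ)).a₂
      = ((W.map (Int.castRingHom ℚ))⁄(AlgebraicClosure ℚ)).a₂ := c _
  have c₃ : (σ : AlgebraicClosure ℚ →+* AlgebraicClosure ℚ)
      ((W.map (Int.castRingHom ℚ))⁄(AlgebraicClosure ℚ)).a₃
      = ((W.map (Int.castRingHom ℚ))⁄(AlgebraicClosure ℚ)).a₃ := c _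
  have c₄ : (σ : AlgebraicClosure ℚ →+* AlgebraicClosure ℚ)
      ((W.map (Int.castRingHom ℚ))⁄(AlgebraicClosure ℚ)).a₄
      = ((W.map (Int.castRingHom ℚ))⁄(AlgebraicClosure ℚ)).a₄ := c _
  have c₆ : (σ : AlgebraicClosure ℚ →+* AlgebraicClosure ℚ)
      ((W.map (Int.castRingHom ℚ))⁄(AlgebraicClosure ℚ)).a₆
      = ((W.map (Int.castRingHom ℚ))⁄(AlgebraicClosure ℚ)).a₆ := c _
  obtain ⟨hσr, hσt⟩ := hC.map_eq_of_val two_ne_zero
    (σ : AlgebraicClosure ℚ →+* AlgebraicClosure ℚ) c₁ c₂ c₃ c₄ c₆ hσv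
  have g₁ : (σ : AlgebraicClosure ℚ →+* AlgebraicClosure ℚ)
      ((transl r t) • ((W.map (Int.castRingHom ℚ))⁄(AlgebraicClosure ℚ))).a₁
      = ((transl r t) • ((W.map (Int.castRingHom ℚ))⁄(AlgebraicClosure ℚ))).a₁ := by
    rw [transl_a₁]; exact c₁
  have g₂ : (σ : AlgebraicClosure ℚ →+* AlgebraicClosure ℚ)
      ((transl r t) • ((W.map (Int.castRingHom ℚ))⁄(AlgebraicClosure ℚ))).a₂
      = ((transl r t) • ((W.map (Int.castRingHom ℚ))⁄(AlgebraicClosure ℚ))).a₂ := by
    rw [transl_a₂, map_add, map_mul, map_ofNat, c₂, hσr]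
  have hαβ : α ≠ β := by
    intro h
    have := nf.vαβ
    rw [h, sub_self, map_zero] at this
    exact zero_ne_one this
  rcases tangent_roots_map_or nf.hsum nf.hprod hαβ
      (σ : AlgebraicClosure ℚ →+* AlgebraicClosure ℚ) g₁ g₂ with ⟨hσα, hσβ⟩ | ⟨hσα, hσβ⟩
  · left
    intro n hn P hP
    have key := map_sub_not_isSingPt (S := ℚ) A.valuation (W.map (Int.castRingHom ℚ)).toAffine
      ((A.valuation_le_one_iff _).mpr hint.mem_a₁) ((A.valuation_le_one_iff _).mpr hint.mem_a₂)
      ((A.valuation_le_one_iff _).mpr hint.mem_a₃) ((A.valuation_le_one_iff _).mpr hint.mem_a₄)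
      ((A.valuation_le_one_iff _).mpr hint.mem_a₆) hC.r_int hC.t_int nf σ.toAlgHom hσv
      hσr hσt hσα hσβ hE0 hn P hP
    rw [not_isSingPt_iff_inE0v] at key
    exact key
  · right
    intro n hn P hP
    have key := map_add_not_isSingPt (S := ℚ) A.valuation (W.map (Int.castRingHom ℚ)).toAffine
      ((A.valuation_le_one_iff _).mpr hint.mem_a₁) ((A.valuation_le_one_iff _).mpr hint.mem_a₂)
      ((A.valuation_le_one_iff _).mpr hint.mem_a₃) ((A.valuation_le_one_iff _).mpr hint.mem_a₄)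
      ((A.valuation_le_one_iff _).mpr hint.mem_a₆) hC.r_int hC.t_int nf σ.toAlgHom hσv
      hσr hσt hσα hσβ hE0 hn P hP
    rw [not_isSingPt_iff_inE0v] at key
    exact key

/-- for `σ` in the inertia group and `P` of odd order, `σ P - P` has nonsingular reduction
(no condition on the residue characteristic) -/
theorem inertia_sub_inE0v (σ : AlgebraicClosure ℚ ≃ₐ[ℚ] AlgebraicClosure ℚ)
    (hσ : σ ∈ A.inertiaSubgroupIn ℚ) {n : ℕ} (hn : Odd n)
    (P : ((W.map (Int.castRingHom ℚ))⁄(AlgebraicClosure ℚ)).Point) (hP : n • P = 0) :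
    InE0v A (σ • P - P) := by
  obtain ⟨r, t, α, β, hr, ht, nf, hfix⟩ := exists_nodalNF W hΔ hc₄ A hA
  obtain ⟨hσr, hσt, hσα, hσβ⟩ := hfix σ hσ
  have hint := intCoeff_map_int W A
  have hσd : σ ∈ A.decompositionSubgroup ℚ := inertiaIn_mem_decomp A σ hσ
  have : Algebra.IsAlgebraic ℚ (AlgebraicClosure ℚ) := AlgebraicClosure.isAlgebraic ℚ
  have hσv : ∀ a : AlgebraicClosure ℚ, A.valuation (σ.toAlgHom a) = A.valuation a :=
    fun a => Fermat.Agent.S13Two.decomp_val_eq A σ hσd a
  have hE0 : ∀ P Q : ((W.map (Int.castRingHom ℚ))⁄(AlgebraicClosure ℚ)).Point,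
      ¬ IsSingPt A.valuation P → ¬ IsSingPt A.valuation Q → ¬ IsSingPt A.valuation (P + Q) := by
    intro P Q hP hQ
    rw [not_isSingPt_iff_inE0v] at hP hQ ⊢
    exact inE0v_add hint hP hQ
  have key := map_sub_not_isSingPt (S := ℚ) A.valuation (W.map (Int.castRingHom ℚ)).toAffine
    ((A.valuation_le_one_iff _).mpr hint.mem_a₁) ((A.valuation_le_one_iff _).mpr hint.mem_a₂)
    ((A.valuation_le_one_iff _).mpr hint.mem_a₃) ((A.valuation_le_one_iff _).mpr hint.mem_a₄)
    ((A.valuation_le_one_iff _).mpr hint.mem_a₆) hr ht nf σ.toAlgHom hσv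
    hσr hσt hσα hσβ hE0 hn P hP
  rw [not_isSingPt_iff_inE0v] at key
  exact key

end

end Fermat.Agent.MultRed
end MergeWrap_Lib_MultRed_DecompQbar
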