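import Mathlib
import Fermat.Agent.MUL.Orig.Lib.MultRed.CharE1
import Fermat.Agent.MUL.Lib.MultRed.E0Tors
import Fermat.Agent.MUL.Lib.MultRed.Unipotent
import Fermat.Agent.MUL.Lib.MultRed.NormalQbar
import Fermat.Agent.MUL.Lib.Torsion.Card
import Fermat.Agent.MUL.Orig.R38.T.FreyData

section MergeWrap_Lib_MultRed_NotInG1 -- from Lib/MultRed/NotInG1.lean

set_option autoImplicit false
set_option linter.unusedSectionVars false

namespace Fermat.Agent.MultRed

open WeierstrassCurve WeierstrassCurve.Affine S05H5 S05H65 S05H75 Fermat.Agent.VarChange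
  Fermat.Agent.Torsion

section General

variable {K : Type*} [Field K] [DecidableEq K] {Γ₀ : Type*} [LinearOrderedCommGroupWithZero Γ₀]
variable (v : Valuation K Γ₀)

omit [DecidableEq K] in
lemma one_lt_v_add_iff {x r : K} (hr : v r ≤ 1) : 1 < v (x + r) ↔ 1 < v x := by
  constructor
  · intro h
    by_contra hx
    rw [not_lt] at hx
    exact absurd (Valuation.map_add_le v hx hr) (not_le.mpr h)
  · intro h
    rw [Valuation.map_add_eq_of_lt_left v (lt_of_le_of_lt hr h)]
    exact h

/-- the kernel of reduction is invariant under an integral translation -/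
lemma inG1_vcHom_transl_iff (W : Affine K) {r : K} (t : K) (hr : v r ≤ 1)
    (P : ((transl r t) • W).toAffine.Point) :
    InG1 v (vcHom (W₁ := W) (transl r t) rfl P) ↔ InG1 v P := by
  rcases P with _ | ⟨x, y, h⟩
  · exact ⟨fun _ => Or.inl rfl, fun _ => Or.inl rfl⟩
  · rw [vcHom_apply, vcFun_some]
    constructor
    · intro hP
      have := one_lt_of_inG1_some hP
      rw [vcX_transl, one_lt_v_add_iff v hr] at this
      exact Or.inr (by rw [px_some]; exact this)
    · intro hP
      have := one_lt_of_inG1_some hP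
      refine Or.inr ?_
      rw [px_some, vcX_transl, one_lt_v_add_iff v hr]
      exact this

/-- in nodal normal form `b₂ = (α - β)²` is a unit and `v Δ = v a₆` -/
lemma NodalNF.v_Δ {v : Valuation K Γ₀} {W : Affine K} {α β : K} (nf : NodalNF v W α β) :
    v W.Δ = v W.a₆ := by
  have hb₂ : W.b₂ = (α - β) ^ 2 := by
    have h1 := nf.hsum
    have h2 := nf.hprod
    simp only [WeierstrassCurve.b₂]
    have ha₁ : W.a₁ = -(α + β) := by rw [h1]; ring
    have ha₂ : W.a₂ = -(α * β) := by rw [h2]; ring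
    rw [ha₁, ha₂]
    ring
  have hvb : v (W.b₂ ^ 3) = 1 := by
    rw [hb₂, map_pow, map_pow, nf.vαβ, one_pow, one_pow]
  have h432 : v (432 * W.a₆) < v (W.b₂ ^ 3) := by
    rw [hvb, map_mul]
    calc v (432 : K) * v W.a₆ ≤ 1 * v W.a₆ := mul_le_mul' (vle_ofNat v 432) le_rfl
      _ = v W.a₆ := one_mul _
      _ < 1 := nf.va₆
  rw [Δ_of_normal W nf.a₃ nf.a₄, map_mul, Valuation.map_neg,
    Valuation.map_add_eq_of_lt_left v h432, hvb, mul_one]

/-- a translate of a node point is integral with singular reduction -/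
theorem isSingPt_vcHom_of_isNodePt (W : Affine K) {r t α β : K} (hr : v r ≤ 1)
    (nf : NodalNF v ((transl r t) • W).toAffine α β) (P' : ((transl r t) • W).toAffine.Point)
    (hn : IsNodePt v P') : IsSingPt v (vcHom (W₁ := W) (transl r t) rfl P') := by
  rcases P' with _ | ⟨x, y, h⟩
  · exact hn
  · rw [vcHom_apply, vcFun_some]
    obtain ⟨hx, hy⟩ := hn
    obtain ⟨hFx, hFy⟩ := singular_of_isNode nf hx hy
    have hu : (((transl r t).u : Kˣ) : K) = 1 := rfl
    have hs0 : (transl r t).s = 0 := rfl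
    refine ⟨?_, ?_, ?_⟩
    · rw [vcX_transl]; exact vle_add v hx.le hr
    · rw [vc_A, hu, hs0]
      simp only [one_pow, one_mul, zero_mul, sub_zero]
      exact hFx
    · rw [vc_B, hu]
      simp only [one_pow, one_mul]
      exact hFy

/-- **`E0[p^k] ⊆ E1`** for a curve with a nodal normal form translate, at a place of residue
characteristic `p`. -/
theorem inG1_of_pow_smul_of_not_isSingPt {A : ValuationSubring K} (W : Affine K)
    {r t α β : K} (hr : A.valuation r ≤ 1)
    (nf : NodalNF A.valuation ((transl r t) • W).toAffine α β) {p : ℕ} [Fact p.Prime]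
    (hvp : A.valuation (p : K) < 1) (k : ℕ) {P : W.Point} (hns : ¬ IsSingPt A.valuation P)
    (hP : (p ^ k) • P = 0) : InG1 A.valuation P := by
  obtain ⟨P', hP'⟩ := exists_vcHom_eq W r t P
  have h1 : ¬ IsNodePt A.valuation P' := by
    intro hn
    apply hns
    rw [← hP']
    exact isSingPt_vcHom_of_isNodePt A.valuation W hr nf P' hn
  have h2 : (p ^ k) • P' = 0 := by
    apply vcHom_injective (W₁ := W) (transl r t) rfl
    rw [map_nsmul, hP', map_zero]
    exact hP
  rw [← hP', inG1_vcHom_transl_iff A.valuation W t hr]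
  exact nf.inG1_of_pow_smul hvp k h1 h2

variable [IsAlgClosed K] [CharZero K]

/-- **a `p`-torsion point outside the kernel of reduction**, from a nodal normal form of a
translate -/
theorem exists_torsion_not_inG1_of_nodalNF (E : Affine K) (hΔ : E.Δ ≠ 0) {r t α β : K}
    (hr : v r ≤ 1) (nf : NodalNF v ((transl r t) • E).toAffine α β) {p : ℕ} (hp : p.Prime)
    (hvΔ : v E.Δ ≤ v (p : K)) :
    ∃ P : E.Point, p • P = 0 ∧ ¬ InG1 v P := by
  by_contra hcon
  push Not at hcon
  have hp0 : (p : K) ≠ 0 := Nat.cast_ne_zero.mpr hp.ne_zero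
  have ha₆ : v ((transl r t) • E).toAffine.a₆ ≤ v (p : K) := by
    have h1 := nf.v_Δ
    have h2 : ((transl r t) • E).toAffine.Δ = E.Δ := transl_Δ E r t
    rw [h2] at h1
    rw [← h1]
    exact hvΔ
  have : NeZero (p : K) := ⟨hp0⟩
  obtain ⟨ζ, hζ⟩ := HasEnoughRootsOfUnity.exists_primitiveRoot K p
  obtain ⟨hfin, hcard⟩ := nf.card_kerRed_torsion_le hp hp0 ha₆ hζ
  -- the injection `E[p] → E1' ∩ E'[p]`
  have hex : ∀ P : torSub E p, ∃ P' : ((transl r t) • E).toAffine.Point,
      vcHom (W₁ := E) (transl r t) rfl P' = P.1 := fun P => exists_vcHom_eq E r t P.1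
  choose f hf using hex
  have hmem : ∀ P : torSub E p, InG1 v (f P) ∧ p • f P = 0 := by
    intro P
    constructor
    · rw [← inG1_vcHom_transl_iff v E t hr, hf]
      exact hcon P.1 (mem_torSub.mp P.2)
    · apply vcHom_injective (W₁ := E) (transl r t) rfl
      rw [map_nsmul, hf, map_zero]
      exact mem_torSub.mp P.2
  let g : torSub E p → {P : ((transl r t) • E).toAffine.Point // InG1 v P ∧ p • P = 0} :=
    fun P => ⟨f P, hmem P⟩
  have hg : Function.Injective g := by
    intro P Q hPQ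
    have h1 : f P = f Q := congrArg Subtype.val hPQ
    apply Subtype.ext
    rw [← hf P, ← hf Q, h1]
  have h1 := Nat.card_le_card_of_injective g hg
  have h2 : Nat.card (torSub E p) = p ^ 2 := tcard_eq_sq hΔ hp.one_le
  rw [h2] at h1
  have h3 : p ^ 2 ≤ p := le_trans h1 hcard
  have h4 := hp.two_le
  nlinarith

end General

section Qbar

/-- **At a multiplicative prime `p` some `p`-torsion point is outside the kernel of reduction.** -/
theorem exists_torsion_not_inG1 (W : WeierstrassCurve ℤ) {p : ℕ} [Fact p.Prime]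
    (hΔ0 : (W.map (Int.castRingHom ℚ)).Δ ≠ 0) (hΔ : (p : ℤ) ∣ W.Δ) (hc₄ : ¬ (p : ℤ) ∣ W.c₄)
    [DecidableEq (AlgebraicClosure ℚ)]
    (A : ValuationSubring (AlgebraicClosure ℚ)) (hA : A.LiesOverPrime p) :
    ∃ P : ((W.map (Int.castRingHom ℚ))⁄(AlgebraicClosure ℚ)).Point,
      p • P = 0 ∧ ¬ InG1 A.valuation P := by
  have hp : p.Prime := Fact.out
  obtain ⟨r, t, α, β, hr, -, nf, -⟩ := exists_nodalNF W hΔ hc₄ A hA
  have hΔE : ((W.map (Int.castRingHom ℚ))⁄(AlgebraicClosure ℚ)).Δ
      = ((W.Δ : ℤ) : AlgebraicClosure ℚ) := by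
    rw [baseChange_map_int]
    show (W.map (algebraMap ℤ (AlgebraicClosure ℚ))).Δ = _
    rw [WeierstrassCurve.map_Δ, eq_intCast]
  have hΔne : ((W.map (Int.castRingHom ℚ))⁄(AlgebraicClosure ℚ)).Δ ≠ 0 := by
    rw [hΔE]
    have : W.Δ ≠ 0 := by
      intro h0
      apply hΔ0
      rw [WeierstrassCurve.map_Δ, h0, map_zero]
    exact_mod_cast this
  have hvΔ : A.valuation ((W.map (Int.castRingHom ℚ))⁄(AlgebraicClosure ℚ)).Δ
      ≤ A.valuation ((p : ℕ) : AlgebraicClosure ℚ) := by
    rw [hΔE]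
    obtain ⟨m, hm⟩ := hΔ
    rw [hm]
    push_cast
    rw [map_mul]
    calc A.valuation (p : AlgebraicClosure ℚ) * A.valuation (m : AlgebraicClosure ℚ)
        ≤ A.valuation (p : AlgebraicClosure ℚ) * 1 := mul_le_mul' le_rfl (vle_intCast _ m)
      _ = A.valuation (p : AlgebraicClosure ℚ) := mul_one _
  exact exists_torsion_not_inG1_of_nodalNF A.valuation
    ((W.map (Int.castRingHom ℚ))⁄(AlgebraicClosure ℚ)).toAffine hΔne hr nf hp hvΔ

/-- **At a multiplicative prime `p` every `p`-power torsion point with nonsingular reduction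
lies in the kernel of reduction.** -/
theorem inG1_of_pow_smul_of_mult (W : WeierstrassCurve ℤ) {p : ℕ} [Fact p.Prime]
    (hΔ : (p : ℤ) ∣ W.Δ) (hc₄ : ¬ (p : ℤ) ∣ W.c₄) [DecidableEq (AlgebraicClosure ℚ)]
    (A : ValuationSubring (AlgebraicClosure ℚ)) (hA : A.LiesOverPrime p) (k : ℕ)
    {P : ((W.map (Int.castRingHom ℚ))⁄(AlgebraicClosure ℚ)).Point}
    (hns : ¬ IsSingPt A.valuation P) (hP : (p ^ k) • P = 0) : InG1 A.valuation P := by
  obtain ⟨r, t, α, β, hr, -, nf, -⟩ := exists_nodalNF W hΔ hc₄ A hA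
  have hvp : A.valuation ((p : ℕ) : AlgebraicClosure ℚ) < 1 := A.mem_nonunits_iff.mp hA
  exact inG1_of_pow_smul_of_not_isSingPt
    ((W.map (Int.castRingHom ℚ))⁄(AlgebraicClosure ℚ)).toAffine hr nf hvp k hns hP

end Qbar

end Fermat.Agent.MultRed
end MergeWrap_Lib_MultRed_NotInG1
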