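import Mathlib
import Fermat.Agent.MUL.Lib.MultRed.NotInG1
import Fermat.Agent.MUL.Lib.MultRed.DecompQbar
import Fermat.Agent.MUL.Orig.Lib.MultRed.InertiaCyclo

section MergeWrap_Lib_MultRed_E0TorsQbar -- from Lib/MultRed/E0TorsQbar.lean

/-!
# MultRed / E0TorsQbar (MR5, ASM part 2; owner: helper4)

Consequences of helper75's `inG1_of_pow_smul_of_mult` (`E0[p^k] ⊆ E1` at a multiplicative prime
`p`) for the decomposition and inertia groups: inertia acts trivially on `E[p^∞]` modulo the kernel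
of reduction, the decomposition group acts through a sign.
-/

set_option autoImplicit false

open WeierstrassCurve WeierstrassCurve.Affine

namespace Fermat.Agent.MultRed

open S05H5 S05H65 S05H75 Fermat.Agent.VarChange



section Torsion

variable {G J : Type*} [Group G] [AddCommGroup J] [DistribMulAction G J]

theorem gal_smul_sub_torsion (σ : G) {n : ℕ} {P : J} (hP : n • P = 0) :
    n • (σ • P - P) = 0 := by
  rw [nsmul_sub, smul_comm, hP, smul_zero, sub_zero]

theorem gal_smul_add_torsion (σ : G) {n : ℕ} {P : J} (hP : n • P = 0) :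
    n • (σ • P + P) = 0 := by
  rw [nsmul_add, smul_comm, hP, smul_zero, add_zero]

end Torsion

section

variable (W : WeierstrassCurve ℤ) {p : ℕ} [Fact p.Prime] (hΔ : (p : ℤ) ∣ W.Δ)
  (hc₄ : ¬ (p : ℤ) ∣ W.c₄) [DecidableEq (AlgebraicClosure ℚ)]
  (A : ValuationSubring (AlgebraicClosure ℚ)) (hA : A.LiesOverPrime p)

include hΔ hc₄ hA

/-- **MR5 (P2), original model**: `E0[p^k] ⊆ E1` at a multiplicative prime `p`
(helper75's `inG1_of_pow_smul_of_mult` in terms of `InE0v`). -/
theorem inG1_of_inE0v_of_pow_smul (k : ℕ)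
    (P : ((W.map (Int.castRingHom ℚ))⁄(AlgebraicClosure ℚ)).Point) (hP : p ^ k • P = 0)
    (h0 : InE0v A P) : InG1 A.valuation P :=
  inG1_of_pow_smul_of_mult W hΔ hc₄ A hA k ((not_isSingPt_iff_inE0v _).mpr h0) hP

/-- inertia at a multiplicative prime `p` (odd) acts trivially on `E[p^k]` modulo the kernel of
reduction -/
theorem inertia_sub_inG1 (hp2 : p ≠ 2) (σ : AlgebraicClosure ℚ ≃ₐ[ℚ] AlgebraicClosure ℚ)
    (hσ : σ ∈ A.inertiaSubgroupIn ℚ) (k : ℕ)
    (P : ((W.map (Int.castRingHom ℚ))⁄(AlgebraicClosure ℚ)).Point) (hP : p ^ k • P = 0) :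
    InG1 A.valuation (σ • P - P) := by
  have hp : p.Prime := Fact.out
  have hodd : Odd (p ^ k) := (hp.odd_of_ne_two hp2).pow
  refine inG1_of_inE0v_of_pow_smul W hΔ hc₄ A hA k _ ?_
    (inertia_sub_inE0v W hΔ hc₄ A hA σ hσ hodd P hP)
  exact gal_smul_sub_torsion σ hP

/-- the decomposition group at a multiplicative prime `p` (odd) acts on `E[p^∞]` modulo the kernel
of reduction through a sign -/
theorem decomp_sign_inG1 (hp2 : p ≠ 2) (σ : AlgebraicClosure ℚ ≃ₐ[ℚ] AlgebraicClosure ℚ)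
    (hσ : σ ∈ A.decompositionSubgroup ℚ) :
    (∀ (k : ℕ) (P : ((W.map (Int.castRingHom ℚ))⁄(AlgebraicClosure ℚ)).Point),
      p ^ k • P = 0 → InG1 A.valuation (σ • P - P)) ∨
    (∀ (k : ℕ) (P : ((W.map (Int.castRingHom ℚ))⁄(AlgebraicClosure ℚ)).Point),
      p ^ k • P = 0 → InG1 A.valuation (σ • P + P)) := by
  have hp : p.Prime := Fact.out
  have hodd : ∀ k, Odd (p ^ k) := fun k => (hp.odd_of_ne_two hp2).pow
  rcases decomp_sign W hΔ hc₄ A hA σ hσ with h | h
  · left
    intro k P hP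
    refine inG1_of_inE0v_of_pow_smul W hΔ hc₄ A hA k _ ?_ (h (hodd k) P hP)
    exact gal_smul_sub_torsion σ hP
  · right
    intro k P hP
    refine inG1_of_inE0v_of_pow_smul W hΔ hc₄ A hA k _ ?_ (h (hodd k) P hP)
    exact gal_smul_add_torsion σ hP

end

end Fermat.Agent.MultRed
end MergeWrap_Lib_MultRed_E0TorsQbar
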